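import Fermat.Agent.Brouwer.Retraction
import Mathlib.Geometry.Manifold.SmoothApprox
import Mathlib.Analysis.InnerProductSpace.Projection.Minimal
import Mathlib.Analysis.SpecialFunctions.Sqrt

/-!
# The fixed point theorem of Brouwer

First for balls of a Euclidean space, then for nonempty compact convex sets in finite dimension.
-/

set_option autoImplicit false

noncomputable section

open Set Metric Module
open scoped InnerProductSpace Topology

namespace FA.Brouwer

section Inner

variable {E : Type*} [NormedAddCommGroup E] [InnerProductSpace ℝ E] [FiniteDimensional ℝ E]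

/-- A continuously differentiable self map of the ball has a fixed point. -/
theorem exists_fixed_contDiff (g : E → E) (hg : ContDiff ℝ 1 g)
    (hmap : ∀ x ∈ closedBall (0 : E) 1, ‖g x‖ ≤ 1) :
    ∃ x ∈ closedBall (0 : E) 1, g x = x := by
  by_contra! hno
  let : MeasurableSpace E := borel E
  have : BorelSpace E := ⟨rfl⟩
  set u : E → E := fun x => x - g x with hu
  set D : E → ℝ := fun x => ⟪x, u x⟫_ℝ ^ 2 + ‖u x‖ ^ 2 * (1 - ‖x‖ ^ 2) with hD
  set l : E → ℝ := fun x => (Real.sqrt (D x) - ⟪x, u x⟫_ℝ) / ‖u x‖ ^ 2 with hl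
  have hu' : ContDiff ℝ 1 u := contDiff_id.sub hg
  have hD' : ContDiff ℝ 1 D :=
    ((contDiff_id.inner ℝ hu').pow 2).add
      ((hu'.norm_sq ℝ).mul (contDiff_const.sub (contDiff_id.norm_sq ℝ)))
  have hu0 : ∀ x ∈ closedBall (0 : E) 1, 0 < ‖u x‖ ^ 2 := fun x hx =>
    pow_pos (norm_pos_iff.2 (sub_ne_zero.2 (hno x hx).symm)) 2
  have hsphere : ∀ x, ‖x‖ = 1 → 0 < ⟪x, u x⟫_ℝ := fun x hx => by
    have hxB : x ∈ closedBall (0 : E) 1 := by simp [hx]
    have h1 : ‖g x‖ ^ 2 ≤ 1 := pow_le_one₀ (norm_nonneg _) (hmap x hxB)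
    have h2 := norm_sub_sq_real x (u x)
    rw [show x - u x = g x from sub_sub_cancel x (g x), hx] at h2
    linarith [hu0 x hxB]
  have hD0 : ∀ x ∈ closedBall (0 : E) 1, 0 < D x := fun x hx => by
    have hle := mem_closedBall_zero_iff.1 hx
    rcases hle.eq_or_lt with h | h
    · simpa [hD, h] using pow_pos (hsphere x h) 2
    · exact add_pos_of_nonneg_of_pos (sq_nonneg _)
        (mul_pos (hu0 x hx) (by nlinarith [norm_nonneg x]))
  refine no_retraction (U := {x | u x ≠ 0} ∩ {x | 0 < D x})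
    ((isOpen_ne_fun hu'.continuous continuous_const).inter
      (isOpen_lt continuous_const hD'.continuous))
    (fun x hx => ⟨by simpa using (hu0 x hx).ne', hD0 x hx⟩)
    (r := fun x => x + l x • u x) ?_ ?_ ?_
  · refine contDiffOn_id.add (ContDiffOn.smul ?_ hu'.contDiffOn)
    refine ContDiffOn.div ((hD'.contDiffOn.sqrt fun x hx => hx.2.ne').sub
      (contDiff_id.inner ℝ hu').contDiffOn) (hu'.norm_sq ℝ).contDiffOn fun x hx => ?_
    simpa using hx.1
  · intro x hx
    have h : ‖x + l x • u x‖ ^ 2 = 1 := by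
      rw [norm_add_sq_real, real_inner_smul_right, norm_smul, mul_pow, Real.norm_eq_abs, sq_abs]
      have hs := Real.sq_sqrt (hD0 x hx).le
      have hb := (hu0 x hx).ne'
      simp only [hl]
      generalize hb' : ‖u x‖ ^ 2 = b at hb ⊢
      have hDx : D x = ⟪x, u x⟫_ℝ ^ 2 + b * (1 - ‖x‖ ^ 2) := by rw [← hb']
      field_simp
      linear_combination hs + hDx
    exact (pow_eq_one_iff_of_nonneg (norm_nonneg _) two_ne_zero).1 h
  · intro x hx
    have : D x = ⟪x, u x⟫_ℝ ^ 2 := by simp [hD, hx]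
    simp [hl, this, Real.sqrt_sq (hsphere x hx).le]

/-- A continuous self map of the ball has a fixed point. -/
theorem exists_fixed_ball (f : E → E) (hf : Continuous f)
    (hmap : ∀ x ∈ closedBall (0 : E) 1, ‖f x‖ ≤ 1) :
    ∃ x ∈ closedBall (0 : E) 1, f x = x := by
  by_contra! hno
  obtain ⟨x₀, hx₀, hmin⟩ := (isCompact_closedBall (0 : E) 1).exists_isMinOn
    ⟨0, mem_closedBall_self zero_le_one⟩ ((hf.sub continuous_id).norm).continuousOn
  have hc : 0 < ‖f x₀ - x₀‖ := norm_pos_iff.2 (sub_ne_zero.2 (hno x₀ hx₀))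
  set ε := ‖f x₀ - x₀‖ / 3 with hε
  obtain ⟨g, hg, hgf, -⟩ := hf.exists_contDiff_approx 1 continuous_const
    (ε := fun _ => ε) fun _ => by positivity
  have hgn : ∀ x ∈ closedBall (0 : E) 1, ‖g x‖ ≤ 1 + ε := fun x hx => by
    calc ‖g x‖ ≤ ‖f x‖ + ‖g x - f x‖ := norm_le_insert' _ _
      _ ≤ 1 + ε := add_le_add (hmap x hx) (by rw [← dist_eq_norm]; exact (hgf x).le)
  have hε1 : 0 < 1 + ε := by positivity
  obtain ⟨x, hx, hfx⟩ := exists_fixed_contDiff (fun x => (1 + ε)⁻¹ • g x) (hg.const_smul _)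
    fun x hx => by
      rw [norm_smul, Real.norm_of_nonneg (inv_nonneg.2 hε1.le)]
      exact (inv_mul_le_iff₀ hε1).2 (by simpa using hgn x hx)
  have h1 : g x = (1 + ε) • x := by
    have := congrArg (fun z => (1 + ε) • z) hfx
    simpa [smul_smul, mul_inv_cancel₀ hε1.ne'] using this
  have h2 : ‖f x - x‖ ≤ ε + ε := by
    calc ‖f x - x‖ ≤ ‖f x - g x‖ + ‖g x - x‖ := norm_sub_le_norm_sub_add_norm_sub _ _ _
      _ ≤ ε + ε := by
        refine add_le_add (by rw [← dist_eq_norm, dist_comm]; exact (hgf x).le) ?_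
        rw [h1, add_smul, one_smul, add_sub_cancel_left, norm_smul,
          Real.norm_of_nonneg (by positivity)]
        exact mul_le_of_le_one_right (by positivity) (mem_closedBall_zero_iff.1 hx)
  have := hmin hx
  simp only [mem_ofPred_eq, Pi.sub_apply, id_eq] at this
  linarith

/-- **Brouwer's theorem** in a Euclidean space. -/
theorem exists_fixed_inner {s : Set E} (hc : IsCompact s) (hconv : Convex ℝ s) (hne : s.Nonempty)
    {f : E → E} (hf : ContinuousOn f s) (hmap : MapsTo f s s) : ∃ x ∈ s, f x = x := by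
  have hp : ∀ x, ∃ q ∈ s, ∀ w ∈ s, ⟪x - q, w - q⟫_ℝ ≤ 0 := fun x => by
    obtain ⟨q, hq, hq'⟩ := exists_norm_eq_iInf_of_complete_convex hne hc.isComplete hconv x
    exact ⟨q, hq, (norm_eq_iInf_iff_real_inner_le_zero hconv hq).1 hq'⟩
  choose p hps hp using hp
  have hLip : LipschitzWith 1 p := LipschitzWith.of_dist_le_mul fun x y => by
    rw [NNReal.coe_one, one_mul, dist_eq_norm, dist_eq_norm]
    have h1 := hp x (p y) (hps y)
    have h2 := hp y (p x) (hps x)
    have h3 : ‖p x - p y‖ ^ 2 ≤ ⟪x - y, p x - p y⟫_ℝ := by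
      have e : ⟪x - y, p x - p y⟫_ℝ - ‖p x - p y‖ ^ 2 =
          -(⟪x - p x, p y - p x⟫_ℝ + ⟪y - p y, p x - p y⟫_ℝ) := by
        simp only [← real_inner_self_eq_norm_sq, inner_sub_left, inner_sub_right]
        ring
      linarith
    have h4 := real_inner_le_norm (x - y) (p x - p y)
    by_contra! hlt
    nlinarith [norm_nonneg (p x - p y), norm_nonneg (x - y)]
  have hpfix : ∀ x ∈ s, p x = x := fun x hx => by
    have h := hp x x hx
    rw [real_inner_self_eq_norm_sq] at h
    exact (sub_eq_zero.1 (norm_eq_zero.1 (pow_eq_zero_iff two_ne_zero |>.1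
      (le_antisymm h (sq_nonneg _))))).symm
  obtain ⟨R, hR0, hR⟩ := hc.isBounded.subset_closedBall_lt 0 (0 : E)
  obtain ⟨x, -, hx⟩ := exists_fixed_ball (fun x => R⁻¹ • f (p (R • x)))
    ((hf.comp_continuous (hLip.continuous.comp (continuous_const_smul R))
      fun x => hps _).const_smul _) fun x _ => by
    rw [norm_smul, Real.norm_of_nonneg (inv_nonneg.2 hR0.le)]
    refine (inv_mul_le_iff₀ hR0).2 ?_
    simpa using hR (hmap (hps (R • x)))
  have hfx : f (p (R • x)) = R • x := by
    have := congrArg (fun z => R • z) hx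
    simpa [smul_smul, mul_inv_cancel₀ hR0.ne'] using this
  have hmem : R • x ∈ s := hfx ▸ hmap (hps _)
  rw [hpfix _ hmem] at hfx
  exact ⟨R • x, hmem, hfx⟩

end Inner

/-- **Brouwer's fixed point theorem** for compact convex sets in finite dimension. -/
theorem exists_fixed {V : Type*} [NormedAddCommGroup V] [NormedSpace ℝ V] [FiniteDimensional ℝ V]
    {s : Set V} (hc : IsCompact s) (hconv : Convex ℝ s) (hne : s.Nonempty) {f : V → V}
    (hf : ContinuousOn f s) (hmap : MapsTo f s s) : ∃ x ∈ s, f x = x := by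
  set L : V ≃L[ℝ] EuclideanSpace ℝ (Fin (finrank ℝ V)) := toEuclidean
  obtain ⟨y, ⟨x, hx, rfl⟩, hy⟩ := exists_fixed_inner (s := L '' s) (f := L ∘ f ∘ L.symm)
    (hc.image L.continuous) (hconv.linear_image L.toLinearMap) (hne.image L)
    (L.continuous.comp_continuousOn (hf.comp L.symm.continuous.continuousOn
      fun z hz => by obtain ⟨x, hx, rfl⟩ := hz; simpa using hx))
    fun z hz => by
      obtain ⟨x, hx, rfl⟩ := hz
      exact ⟨f x, hmap hx, by simp⟩
  exact ⟨x, hx, L.injective (by simpa using hy)⟩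

end FA.Brouwer

end
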