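import Fermat.Agent.Brouwer.Basic
import Mathlib.Analysis.Convex.StdSimplex
import Mathlib.Algebra.BigOperators.GroupWithZero.Finset

/-!
# Nash equilibria

A finite game has an equilibrium in mixed strategies (Nash), by Brouwer's theorem.
-/

set_option autoImplicit false

noncomputable section

open Finset Function

namespace FA.Brouwer

variable {ι : Type*} [Fintype ι] [DecidableEq ι] {S : ι → Type*} [∀ i, Fintype (S i)]

/-- The expected payoff of the profile `σ` of mixed strategies. -/
def expected (u : (∀ i, S i) → ℝ) (σ : ∀ i, S i → ℝ) : ℝ :=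
  ∑ a : ∀ i, S i, (∏ j, σ j (a j)) * u a

/-- The expected payoff is linear in the strategy of each player. -/
theorem expected_update [∀ i, DecidableEq (S i)] (u : (∀ i, S i) → ℝ) (σ : ∀ i, S i → ℝ) (i : ι)
    (τ : S i → ℝ) :
    expected u (update σ i τ) = ∑ s, τ s * expected u (update σ i (Pi.single s 1)) := by
  have key : ∀ (ρ : S i → ℝ) (a : ∀ i, S i), ∏ j, update σ i ρ j (a j) =
      ρ (a i) * ∏ j ∈ univ.erase i, σ j (a j) := by
    intro ρ a
    rw [← mul_prod_erase univ _ (mem_univ i), update_self]
    congr 1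
    exact prod_congr rfl fun j hj => by rw [update_of_ne (ne_of_mem_erase hj)]
  simp only [expected, mul_sum, key]
  rw [sum_comm]
  refine sum_congr rfl fun a _ => ?_
  rw [sum_eq_single (a i) (fun s _ hs => by simp [Pi.single_eq_of_ne hs.symm])
    (fun h => absurd (mem_univ _) h), Pi.single_eq_same]
  ring

/-- **Nash's theorem.** -/
theorem exists_equilibrium [∀ i, Nonempty (S i)] (u : ι → (∀ i, S i) → ℝ) :
    ∃ σ : ∀ i, S i → ℝ, (∀ i, σ i ∈ stdSimplex ℝ (S i)) ∧
      ∀ i, ∀ τ ∈ stdSimplex ℝ (S i), expected (u i) (update σ i τ) ≤ expected (u i) σ := by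
  classical
  let gain : (∀ i, S i → ℝ) → ∀ i, S i → ℝ := fun σ i s =>
    max 0 (expected (u i) (update σ i (Pi.single s 1)) - expected (u i) σ)
  let T : (∀ i, S i → ℝ) → ∀ i, S i → ℝ := fun σ i s =>
    (σ i s + gain σ i s) / (1 + ∑ t, gain σ i t)
  have hg : ∀ σ i s, 0 ≤ gain σ i s := fun σ i s => le_max_left _ _
  have hden : ∀ σ i, 0 < 1 + ∑ t, gain σ i t := fun σ i =>
    add_pos_of_pos_of_nonneg one_pos (sum_nonneg fun t _ => hg σ i t)
  have hexp : ∀ w, Continuous fun σ : ∀ i, S i → ℝ => expected w σ := fun w =>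
    continuous_finsetSum _ fun a _ => (continuous_finsetProd _ fun j _ =>
      (continuous_apply (a j)).comp (continuous_apply j)).mul continuous_const
  have hgain : ∀ i s, Continuous fun σ => gain σ i s := fun i s =>
    continuous_const.max (((hexp (u i)).comp
      (continuous_id.update i continuous_const)).sub (hexp (u i)))
  have hT : Continuous T := continuous_pi fun i => continuous_pi fun s =>
    (((continuous_apply s).comp (continuous_apply i)).add (hgain i s)).div
      (continuous_const.add (continuous_finsetSum _ fun t _ => hgain i t)) fun σ => (hden σ i).ne'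
  obtain ⟨σ, hσ, hfix⟩ := exists_fixed (s := Set.univ.pi fun i => stdSimplex ℝ (S i)) (f := T)
    (isCompact_univ_pi fun i => isCompact_stdSimplex ℝ (S i))
    (convex_pi fun i _ => convex_stdSimplex ℝ (S i))
    ⟨fun i => Pi.single (Classical.arbitrary _) 1, fun i _ => single_mem_stdSimplex ℝ _⟩
    hT.continuousOn fun σ hσ i _ => ⟨fun s => div_nonneg (add_nonneg ((hσ i trivial).1 s)
      (hg σ i s)) (hden σ i).le, by
        simp only [T]
        rw [← sum_div, sum_add_distrib, (hσ i trivial).2, div_self (hden σ i).ne']⟩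
  refine ⟨σ, fun i => hσ i trivial, fun i τ hτ => ?_⟩
  obtain ⟨hσ0, hσ1⟩ := hσ i trivial
  set G := ∑ t, gain σ i t with hG
  have hfs : ∀ s, σ i s * G = gain σ i s := fun s => by
    have h := congrFun (congrFun hfix i) s
    simp only [T, ← hG] at h
    rw [div_eq_iff (hG ▸ (hden σ i).ne' : (1 + G) ≠ 0)] at h
    linarith
  have hlin := expected_update (u i) σ i (σ i)
  rw [update_eq_self] at hlin
  have hG0 : G = 0 := by
    by_contra hne
    have hpos : 0 < G := (sum_nonneg fun t _ => hg σ i t).lt_of_ne (Ne.symm hne)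
    obtain ⟨s, hs⟩ : ∃ s, 0 < σ i s := by
      by_contra! h
      linarith [sum_nonpos (s := univ) fun s _ => h s]
    have hbig : ∀ s, 0 < σ i s →
        expected (u i) σ < expected (u i) (update σ i (Pi.single s 1)) := fun s hs => by
      have h : 0 < gain σ i s := hfs s ▸ mul_pos hs hpos
      simp only [gain, lt_max_iff, lt_irrefl, false_or, sub_pos] at h
      exact h
    have : ∑ t, σ i t * expected (u i) σ <
        ∑ t, σ i t * expected (u i) (update σ i (Pi.single t 1)) := by
      refine sum_lt_sum (fun t _ => ?_) ⟨s, mem_univ s, mul_lt_mul_of_pos_left (hbig s hs) hs⟩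
      rcases (hσ0 t).eq_or_lt with h | h
      · rw [← h, zero_mul, zero_mul]
      · exact (mul_lt_mul_of_pos_left (hbig t h) h).le
    rw [← sum_mul, hσ1, one_mul, ← hlin] at this
    exact lt_irrefl _ this
  have hle : ∀ s, expected (u i) (update σ i (Pi.single s 1)) ≤ expected (u i) σ := fun s => by
    have h := hfs s
    rw [hG0, mul_zero] at h
    linarith [h.symm.le, le_max_right (0 : ℝ)
      (expected (u i) (update σ i (Pi.single s 1)) - expected (u i) σ)]
  rw [expected_update (u i) σ i τ]
  refine (sum_le_sum fun s _ => mul_le_mul_of_nonneg_left (hle s) (hτ.1 s)).trans_eq ?_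
  rw [← sum_mul, hτ.2, one_mul]

end FA.Brouwer

end
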