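import Mathlib.Analysis.InnerProductSpace.PiL2
import Mathlib.Analysis.Calculus.InverseFunctionTheorem.FDeriv
import Mathlib.Analysis.Calculus.ContDiff.Operations
import Mathlib.Analysis.Calculus.ContDiff.RCLike
import Mathlib.Analysis.InnerProductSpace.Calculus
import Mathlib.Analysis.Calculus.MeanValue
import Mathlib.LinearAlgebra.Lagrange
import Mathlib.LinearAlgebra.Matrix.Polynomial
import Mathlib.MeasureTheory.Function.Jacobian
import Mathlib.MeasureTheory.Measure.Lebesgue.EqHaar
import Mathlib.Tactic

/-!
# A ball does not retract continuously differentiably onto its sphere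

The volume of the image of the ball under `(1 - t) • id + t • r` is a polynomial in `t`, equal to
the volume of the ball for small `t` and to zero at `t = 1` (Milnor and Rogers).
-/

set_option autoImplicit false

noncomputable section

open Set Metric MeasureTheory Polynomial
open scoped InnerProductSpace Topology

namespace FA.Brouwer

variable {E : Type*} [NormedAddCommGroup E] [InnerProductSpace ℝ E] [FiniteDimensional ℝ E]

/-- `(1 - t) • id + t • L`. -/
def interpMap (L : E →L[ℝ] E) (t : ℝ) : E →L[ℝ] E :=
  (1 - t) • ContinuousLinearMap.id ℝ E + t • L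

/-- The determinant of `interpMap` is given by interpolation at `0, …, d`. -/
theorem det_interpMap (L : E →L[ℝ] E) (t : ℝ) :
    (interpMap L t).det = ∑ j ∈ Finset.range (Module.finrank ℝ E + 1),
      (Lagrange.basis (Finset.range (Module.finrank ℝ E + 1)) (fun k : ℕ => (k : ℝ)) j).eval t *
        (interpMap L (j : ℝ)).det := by
  set b := Module.finBasis ℝ E
  set M := LinearMap.toMatrix b b (L : E →ₗ[ℝ] E)
  set p : ℝ[X] := Matrix.det
    ((X : ℝ[X]) • (M - 1).map C + (1 : Matrix _ _ ℝ).map C) with hp
  have hev : ∀ s : ℝ, p.eval s = (interpMap L s).det := by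
    intro s
    rw [ContinuousLinearMap.det, ← LinearMap.det_toMatrix b, hp, ← coe_evalRingHom,
      RingHom.map_det]
    congr 1
    ext i k
    simp only [interpMap, ContinuousLinearMap.toLinearMap_add, ContinuousLinearMap.toLinearMap_smul,
      ContinuousLinearMap.coe_id, map_add, map_smul, LinearMap.toMatrix_id, RingHom.mapMatrix_apply,
      Matrix.map_apply, Matrix.add_apply, Matrix.smul_apply, Matrix.sub_apply, smul_eq_mul,
      coe_evalRingHom, eval_mul, eval_X, eval_C, M]
    ring
  have hdeg : p.degree < (Finset.range (Module.finrank ℝ E + 1)).card := by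
    rw [Finset.card_range]
    refine lt_of_le_of_lt degree_le_natDegree ?_
    have := natDegree_det_X_add_C_le (M - 1) (1 : Matrix _ _ ℝ)
    rw [Fintype.card_fin] at this
    exact_mod_cast Nat.lt_succ_of_le this
  have hinj : Set.InjOn (fun k : ℕ => (k : ℝ))
      (Finset.range (Module.finrank ℝ E + 1) : Set ℕ) := fun i _ j _ h => Nat.cast_injective h
  rw [← hev t, Lagrange.eq_interpolate hinj hdeg, Lagrange.interpolate_apply, eval_finsetSum]
  exact Finset.sum_congr rfl fun j _ => by rw [eval_mul, eval_C, hev, mul_comm]

variable [MeasurableSpace E] [BorelSpace E]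

/-- **No retraction of the ball onto the sphere.** -/
theorem no_retraction {U : Set E} (hU : IsOpen U) (hBU : closedBall (0 : E) 1 ⊆ U) {r : E → E}
    (hr : ContDiffOn ℝ 1 r U) (hnorm : ∀ x ∈ closedBall (0 : E) 1, ‖r x‖ = 1)
    (hfix : ∀ x, ‖x‖ = 1 → r x = x) : False := by
  set B := closedBall (0 : E) 1 with hB
  have hBc : IsCompact B := isCompact_closedBall 0 1
  have hB0 : (0 : E) ∈ B := mem_closedBall_self zero_le_one
  have hD : ∀ x ∈ B, ContDiffAt ℝ 1 r x := fun x hx => hr.contDiffAt (hU.mem_nhds (hBU hx))
  have hDc : ContinuousOn (fderiv ℝ r) B :=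
    (hr.continuousOn_fderiv_of_isOpen hU le_rfl).mono hBU
  obtain ⟨M, hM⟩ := hBc.exists_bound_of_continuousOn hDc
  have hM0 : 0 ≤ M := (norm_nonneg _).trans (hM 0 hB0)
  let A : ℝ → E → E →L[ℝ] E := fun t x => interpMap (fderiv ℝ r x) t
  let f : ℝ → E → E := fun t x => (1 - t) • x + t • r x
  have hfd : ∀ t, ∀ x ∈ B, HasStrictFDerivAt (f t) (A t x) x := fun t x hx =>
    ((hasStrictFDerivAt_id x).const_smul (1 - t)).add
      (((hD x hx).hasStrictFDerivAt one_ne_zero).const_smul t)
  -- small `t`: the map is a bijection of the ball with positive determinant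
  have hsmall : ∀ t : ℝ, 0 ≤ t → t * (M + 1) < 1 →
      ∫ x in B, (A t x).det = volume.real B := by
    intro t ht0 ht
    have ht1 : t < 1 := by nlinarith
    have hne : ∀ s : ℝ, 0 ≤ s → s ≤ t → ∀ x ∈ B, (A s x).det ≠ 0 := by
      intro s hs0 hst x hx hdet
      obtain ⟨v, hv, hv0⟩ := (LinearMap.ker (A s x : E →ₗ[ℝ] E)).exists_mem_ne_zero_of_ne_bot
        ((LinearMap.det_eq_zero_iff_ker_ne_bot).1 hdet)
      have hv' : (1 - s) • v = -(s • fderiv ℝ r x v) := by
        have : (1 - s) • v + s • fderiv ℝ r x v = 0 := by simpa [A, interpMap] using hv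
        exact eq_neg_of_add_eq_zero_left this
      have h := congrArg norm hv'
      rw [norm_neg, norm_smul, norm_smul, Real.norm_of_nonneg (by linarith),
        Real.norm_of_nonneg hs0] at h
      have h' : ‖fderiv ℝ r x v‖ ≤ M * ‖v‖ :=
        (ContinuousLinearMap.le_opNorm _ v).trans (by gcongr; exact hM x hx)
      have hvpos : 0 < ‖v‖ := norm_pos_iff.2 hv0
      have h2 := mul_le_mul_of_nonneg_left h' hs0
      have h3 : s * (M + 1) ≤ t * (M + 1) := by gcongr
      nlinarith
    have hpos : ∀ x ∈ B, 0 < (A t x).det := by
      intro x hx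
      have hcont : Continuous fun s : ℝ => (A s x).det := by
        refine ContinuousLinearMap.continuous_det.comp ?_
        exact ((continuous_const.sub continuous_id).smul continuous_const).add
          (continuous_id.smul continuous_const)
      by_contra! hle
      have h1 : (1 : ℝ) = (A 0 x).det := by
        simp [A, interpMap, ContinuousLinearMap.det]
      obtain ⟨s, hs, hs0⟩ := intermediate_value_Icc' ht0 hcont.continuousOn
        (show (0 : ℝ) ∈ Icc ((A t x).det) ((A 0 x).det) from ⟨hle, h1 ▸ zero_le_one⟩)
      exact hne s hs.1 hs.2 x hx hs0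
    have hinj : InjOn (f t) B := by
      intro x hx y hy hxy
      have h : (1 - t) • (x - y) = t • (r y - r x) := by
        simp only [f] at hxy
        rw [smul_sub, smul_sub, sub_eq_sub_iff_add_eq_add, hxy]
        abel
      have h' := Convex.norm_image_sub_le_of_norm_fderiv_le
        (fun z hz => (hD z hz).differentiableAt one_ne_zero) hM (convex_closedBall 0 1) hy hx
      have h2 := congrArg norm h
      rw [norm_smul, norm_smul, Real.norm_of_nonneg (by linarith), Real.norm_of_nonneg ht0,
        norm_sub_rev (r y)] at h2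
      have h3 := mul_le_mul_of_nonneg_left h' ht0
      by_contra hne'
      have : 0 < ‖x - y‖ := norm_pos_iff.2 (sub_ne_zero.2 hne')
      nlinarith
    have hmaps : MapsTo (f t) B B := fun x hx =>
      convex_closedBall (0 : E) 1 hx (mem_closedBall_zero_iff.2 (hnorm x hx).le) (by linarith) ht0
        (by ring)
    have hball : MapsTo (f t) (ball 0 1) (ball 0 1) := by
      intro x hx
      have hxB := ball_subset_closedBall hx
      rw [mem_ball_zero_iff] at hx ⊢
      refine (norm_add_le _ _).trans_lt ?_
      rw [norm_smul, norm_smul, Real.norm_of_nonneg (by linarith), Real.norm_of_nonneg ht0,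
        hnorm x hxB]
      nlinarith
    have hopen : IsOpen (f t '' ball 0 1) := by
      refine isOpen_iff_mem_nhds.2 ?_
      rintro _ ⟨x, hx, rfl⟩
      have hsurj : (A t x).range = ⊤ := by
        refine LinearMap.range_eq_top.2 ?_
        rw [← LinearMap.injective_iff_surjective]
        refine LinearMap.ker_eq_bot.1 (not_not.1 fun hker => ?_)
        exact (hpos x (ball_subset_closedBall hx)).ne'
          (LinearMap.det_eq_zero_iff_ker_ne_bot.2 hker)
      rw [← (hfd t x (ball_subset_closedBall hx)).map_nhds_eq_of_surj hsurj]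
      exact Filter.image_mem_map (isOpen_ball.mem_nhds hx)
    have hfixs : ∀ x ∈ B, x ∉ ball (0 : E) 1 → f t x = x := fun x hx hx' => by
      have : ‖x‖ = 1 := le_antisymm (mem_closedBall_zero_iff.1 hx)
        (not_lt.1 fun h => hx' (mem_ball_zero_iff.2 h))
      simp [f, hfix x this, ← add_smul]
    have honto : ball (0 : E) 1 ⊆ f t '' ball 0 1 := by
      refine (convex_ball (0 : E) 1).isPreconnected.subset_left_of_subset_union hopen
        (hBc.image_of_continuousOn
          fun x hx => (hfd t x hx).continuousAt.continuousWithinAt).isClosed.isOpen_compl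
        (disjoint_compl_right.mono_left (image_mono ball_subset_closedBall)) ?_ ?_
      · intro y hy
        by_contra! h
        rw [mem_union, not_or, mem_compl_iff, not_not] at h
        obtain ⟨x, hx, rfl⟩ := h.2
        by_cases hx' : x ∈ ball (0 : E) 1
        · exact h.1 ⟨x, hx', rfl⟩
        · exact hx' (hfixs x hx hx' ▸ hy)
      · exact ⟨f t 0, hball (mem_ball_self one_pos), 0, mem_ball_self one_pos, rfl⟩
    have himage : f t '' B = B := by
      refine hmaps.image_subset.antisymm fun y hy => ?_
      by_cases hy' : y ∈ ball (0 : E) 1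
      · exact image_mono ball_subset_closedBall (honto hy')
      · exact ⟨y, hy, hfixs y hy hy'⟩
    have hint := integral_image_eq_integral_abs_det_fderiv_smul volume
      (measurableSet_closedBall (x := (0 : E)) (ε := 1))
      (fun x hx => (hfd t x hx).hasFDerivAt.hasFDerivWithinAt) hinj fun _ => (1 : ℝ)
    rw [himage, setIntegral_const, smul_eq_mul, mul_one] at hint
    rw [hint]
    refine setIntegral_congr_fun measurableSet_closedBall fun x hx => ?_
    simp [abs_of_pos (hpos x hx)]
  -- interpolation: the integral is a polynomial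
  set N := Finset.range (Module.finrank ℝ E + 1)
  set c : ℕ → ℝ := fun j => ∫ x in B, (A j x).det
  set Q : ℝ[X] := ∑ j ∈ N, C (c j) * Lagrange.basis N (fun k : ℕ => (k : ℝ)) j
  have hQ : ∀ t : ℝ, ∫ x in B, (A t x).det = Q.eval t := by
    intro t
    simp only [A, det_interpMap (fderiv ℝ r _) t, Q, eval_finsetSum, eval_mul, eval_C]
    rw [integral_finsetSum]
    · exact Finset.sum_congr rfl fun j _ => by rw [integral_const_mul, mul_comm]
    · intro j _
      have hc : ContinuousOn (fun x => (interpMap (fderiv ℝ r x) (j : ℝ)).det) B :=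
        ContinuousLinearMap.continuous_det.comp_continuousOn
          (continuousOn_const.add (hDc.const_smul (j : ℝ)))
      have hi : Integrable (fun x => (interpMap (fderiv ℝ r x) (j : ℝ)).det)
          (volume.restrict B) := hc.integrableOn_compact hBc
      exact hi.const_mul _
  have hconst : Q = C (volume.real B) := by
    refine eq_of_infinite_eval_eq _ _ (Set.Infinite.mono ?_ (Ioo_infinite (a := (0 : ℝ))
      (b := 1 / (M + 1)) (by positivity)))
    intro t ht
    simp only [mem_ofPred_eq, eval_C, ← hQ]
    exact hsmall t ht.1.le ((lt_div_iff₀ (by linarith)).1 ht.2)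
  have h1 : ∫ x in B, (A 1 x).det = 0 := by
    rw [setIntegral_congr_fun (g := fun _ => (0 : ℝ)) measurableSet_closedBall, integral_zero]
    have heq : EqOn (fun x => (A 1 x).det) (fun _ => (0 : ℝ)) (ball (0 : E) 1) := by
      intro x hx
      have hxB : x ∈ B := ball_subset_closedBall hx
      have hd := ((hD x hxB).differentiableAt one_ne_zero).hasFDerivAt.norm_sq
      have hev : (fun y => ‖r y‖ ^ 2) =ᶠ[𝓝 x] fun _ => (1 : ℝ) :=
        Filter.eventually_of_mem (isOpen_ball.mem_nhds hx) fun y hy => by
          simp [hnorm y (ball_subset_closedBall hy)]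
      have hzero := hd.unique ((hasFDerivAt_const (1 : ℝ) x).congr_of_eventuallyEq hev)
      show LinearMap.det (A 1 x : E →ₗ[ℝ] E) = 0
      rw [LinearMap.det_eq_zero_iff_ker_ne_bot]
      intro hker
      obtain ⟨v, hv⟩ := LinearMap.injective_iff_surjective.1 (LinearMap.ker_eq_bot.1 hker) (r x)
      have h := DFunLike.congr_fun hzero v
      simp only [A, interpMap, sub_self, zero_smul, zero_add, one_smul,
        ContinuousLinearMap.coe_coe] at hv
      simp [hv, hnorm x hxB] at h
    refine heq.of_subset_closure ?_ continuousOn_const ball_subset_closedBall ?_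
    · exact ContinuousLinearMap.continuous_det.comp_continuousOn
        (continuousOn_const.add (hDc.const_smul (1 : ℝ)))
    · rw [closure_ball (0 : E) one_ne_zero]
  rw [hQ, hconst, eval_C] at h1
  have : 0 < volume.real B := by
    rw [measureReal_def, ENNReal.toReal_pos_iff]
    exact ⟨measure_closedBall_pos volume 0 one_pos, measure_closedBall_lt_top⟩
  linarith

end FA.Brouwer

end
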